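import Fermat.Agent.S19.RL.Poly

/-!
# S19 / Loc / Defs : from coordinates on the kernel of reduction to a local order (pure algebra)

`K` a field (`= Qbar`), `A` a valuation subring, `Γ` (`=` inertia) acting on `K` through `β`,
`R' = fixR A β`.

* `Coord A β J1 z` : (L1) the abstract input.  `J` a `Γ`-module (`= Pic0`), `J1` a subgroup (`=` the
  classes of the divisors `B` of degree `0` with `rD B = 0`), `z : J → ι → K` coordinates on `J1`
  (junk outside), with the ADDITION THEOREM `add` in the language of `RL/Poly`.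
* `Dec S F` : the kernel `F : G → G → K` is a finite sum `∑ a_i(x) b_i(y)` with `a_i, b_i ∈ S`.
* `Hloc A β cls ζ` : the functions on `G` which are polynomials in `ζ` with coefficients in `R'` on
  every fibre of `cls`.
-/

set_option autoImplicit false

namespace Fermat.Agent.S19.Loc

open Fermat.Agent.S19.RL MvPolynomial

variable {K : Type} [Field K]

/-- (L1) coordinates on the kernel of reduction. -/
structure Coord (A : ValuationSubring K) {Γ : Type} [Group Γ] (β : Γ →* RingAut K)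
    {J : Type} [AddCommGroup J] [DistribMulAction Γ J] (J1 : AddSubgroup J) {ι : Type}
    (z : J → ι → K) : Prop where
  smul_sub_mem : ∀ (σ : Γ) (u : J), σ • u - u ∈ J1
  exists_fixed : ∀ u : J, ∃ b : J, (∀ σ : Γ, σ • b = b) ∧ u - b ∈ J1
  equi : ∀ (σ : Γ), ∀ u ∈ J1, ∀ l, z (σ • u) l = β σ (z u l)
  mem : ∀ u ∈ J1, ∀ l, z u l ∈ A.nonunits
  inj : ∀ u ∈ J1, ∀ u' ∈ J1, z u = z u' → u = u'
  add : ∀ (W : Type) [Finite W] [MulAction Γ W] (κ : Type) [Finite κ] (T : κ → W → K),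
    (∀ a, Equi β (T a)) → (∀ a w, T a w ∈ A.nonunits) →
    (∀ w w', (∀ a, T a w = T a w') → w = w') →
    ∀ U U' : W → J, (∀ w, U w ∈ J1) → (∀ w, U' w ∈ J1) →
    (∀ (σ : Γ) w, U (σ • w) = σ • U w) → (∀ (σ : Γ) w, U' (σ • w) = σ • U' w) →
    (∀ l, IsPoly (fixR A β) T (fun w => z (U w) l)) →
    (∀ l, IsPoly (fixR A β) T (fun w => z (U' w) l)) →
    ∀ l, IsPoly (fixR A β) T (fun w => z (U w + U' w) l)

/-- the kernel `F` is a finite sum `∑ a_i(x) b_i(y)` with `a_i, b_i ∈ S`. -/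
def Dec {G : Type} (S : Set (G → K)) (F : G → G → K) : Prop :=
  ∃ (ι : Type) (_ : Fintype ι) (a b : ι → G → K), (∀ i, a i ∈ S) ∧ (∀ i, b i ∈ S) ∧
    ∀ x y, F x y = ∑ i, a i x * b i y

/-- the functions which are `R'`-polynomials in `ζ` on every fibre of `cls`. -/
def Hloc (A : ValuationSubring K) {Γ : Type} [Group Γ] (β : Γ →* RingAut K) {G C ι : Type}
    (cls : G → C) (ζ : G → ι → K) : Subalgebra (fixR A β) (G → K) where
  carrier := {f | ∀ c : C, ∃ p : MvPolynomial ι (fixR A β), ∀ x, cls x = c → f x = aeval (ζ x) p}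
  mul_mem' := fun {f g} hf hg c => by
    obtain ⟨p, hp⟩ := hf c
    obtain ⟨q, hq⟩ := hg c
    exact ⟨p * q, fun x hx => by rw [Pi.mul_apply, hp x hx, hq x hx, map_mul]⟩
  add_mem' := fun {f g} hf hg c => by
    obtain ⟨p, hp⟩ := hf c
    obtain ⟨q, hq⟩ := hg c
    exact ⟨p + q, fun x hx => by rw [Pi.add_apply, hp x hx, hq x hx, map_add]⟩
  algebraMap_mem' := fun r c => ⟨MvPolynomial.C r, fun x _ => by
    rw [aeval_C]; rfl⟩

theorem mem_Hloc {A : ValuationSubring K} {Γ : Type} [Group Γ] {β : Γ →* RingAut K} {G C ι : Type}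
    {cls : G → C} {ζ : G → ι → K} {f : G → K} :
    f ∈ Hloc A β cls ζ ↔
      ∀ c : C, ∃ p : MvPolynomial ι (fixR A β), ∀ x, cls x = c → f x = aeval (ζ x) p := Iff.rfl

end Fermat.Agent.S19.Loc
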