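import Fermat.Agent.S19.Loc.Defs

/-!
# S19 / Loc / Dec : calculus of decomposable kernels
-/

set_option autoImplicit false

namespace Fermat.Agent.S19.Loc

variable {K : Type} [Field K] {G : Type} {S : Set (G → K)}

theorem Dec.congr {F F' : G → G → K} (h : Dec S F) (hF : ∀ x y, F x y = F' x y) : Dec S F' := by
  obtain ⟨ι, i, a, b, ha, hb, hab⟩ := h
  exact ⟨ι, i, a, b, ha, hb, fun x y => by rw [← hF, hab]⟩

theorem Dec.mono {S' : Set (G → K)} {F : G → G → K} (h : Dec S F) (hS : S ⊆ S') : Dec S' F := by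
  obtain ⟨ι, i, a, b, ha, hb, hab⟩ := h
  exact ⟨ι, i, a, b, fun j => hS (ha j), fun j => hS (hb j), hab⟩

theorem dec_zero : Dec S (fun _ _ => (0 : K)) :=
  ⟨Empty, inferInstance, fun e => e.elim, fun e => e.elim, fun e => e.elim, fun e => e.elim,
    fun _ _ => by simp⟩

theorem dec_tmul {a b : G → K} (ha : a ∈ S) (hb : b ∈ S) : Dec S (fun x y => a x * b y) :=
  ⟨Unit, inferInstance, fun _ => a, fun _ => b, fun _ => ha, fun _ => hb, fun _ _ => by simp⟩

theorem Dec.add {F F' : G → G → K} (h : Dec S F) (h' : Dec S F') :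
    Dec S (fun x y => F x y + F' x y) := by
  obtain ⟨ι, i, a, b, ha, hb, hab⟩ := h
  obtain ⟨ι', i', a', b', ha', hb', hab'⟩ := h'
  refine ⟨ι ⊕ ι', inferInstance, Sum.elim a a', Sum.elim b b', ?_, ?_, fun x y => ?_⟩
  · rintro (j | j)
    · exact ha j
    · exact ha' j
  · rintro (j | j)
    · exact hb j
    · exact hb' j
  · show F x y + F' x y = _
    rw [Fintype.sum_sum_type, hab, hab']
    rfl

theorem dec_sum {κ : Type*} (s : Finset κ) (F : κ → G → G → K) (h : ∀ j ∈ s, Dec S (F j)) :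
    Dec S (fun x y => ∑ j ∈ s, F j x y) := by
  classical
  induction s using Finset.induction_on with
  | empty => exact dec_zero.congr fun x y => by simp
  | insert j s hj ih =>
    refine ((h j (Finset.mem_insert_self j s)).add
      (ih fun i hi => h i (Finset.mem_insert_of_mem hi))).congr fun x y => ?_
    rw [Finset.sum_insert hj]

theorem Dec.mul (hS : ∀ f ∈ S, ∀ g ∈ S, f * g ∈ S) {F F' : G → G → K} (h : Dec S F)
    (h' : Dec S F') : Dec S (fun x y => F x y * F' x y) := by
  obtain ⟨ι, i, a, b, ha, hb, hab⟩ := h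
  obtain ⟨ι', i', a', b', ha', hb', hab'⟩ := h'
  refine ⟨ι × ι', inferInstance, fun j => a j.1 * a' j.2, fun j => b j.1 * b' j.2,
    fun j => hS _ (ha _) _ (ha' _), fun j => hS _ (hb _) _ (hb' _), fun x y => ?_⟩
  show F x y * F' x y = _
  rw [hab, hab', Finset.sum_mul_sum, Fintype.sum_prod_type]
  refine Finset.sum_congr rfl fun j _ => Finset.sum_congr rfl fun j' _ => ?_
  simp only [Pi.mul_apply]
  ring

/-- multiplication by a function of the first variable. -/
theorem Dec.mul_left (hS : ∀ f ∈ S, ∀ g ∈ S, f * g ∈ S) {F : G → G → K} (h : Dec S F) {c : G → K}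
    (hc : c ∈ S) : Dec S (fun x y => F x y * c x) := by
  obtain ⟨ι, i, a, b, ha, hb, hab⟩ := h
  refine ⟨ι, i, fun j => a j * c, b, fun j => hS _ (ha _) _ hc, hb, fun x y => ?_⟩
  show F x y * c x = _
  rw [hab, Finset.sum_mul]
  refine Finset.sum_congr rfl fun j _ => ?_
  simp only [Pi.mul_apply]
  ring

/-- multiplication by a function of the second variable. -/
theorem Dec.mul_right (hS : ∀ f ∈ S, ∀ g ∈ S, f * g ∈ S) {F : G → G → K} (h : Dec S F) {c : G → K}
    (hc : c ∈ S) : Dec S (fun x y => F x y * c y) := by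
  obtain ⟨ι, i, a, b, ha, hb, hab⟩ := h
  refine ⟨ι, i, a, fun j => b j * c, ha, fun j => hS _ (hb _) _ hc, fun x y => ?_⟩
  show F x y * c y = _
  rw [hab, Finset.sum_mul]
  refine Finset.sum_congr rfl fun j _ => ?_
  simp only [Pi.mul_apply]
  ring

end Fermat.Agent.S19.Loc
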