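import Fermat.Agent.S19.RL.Poly

/-!
# S19 / Loc / FG : modules of equivariant integral functions are finitely generated   (TASK S19/L-FG)
-/

set_option autoImplicit false

namespace Fermat.Agent.S19.Loc

open Fermat.Agent.S19.RL

variable {K : Type*} [Field K] {A : ValuationSubring K} {Γ : Type*} [Group Γ] {β : Γ →* RingAut K}
  {ϖ : K} {W : Type*} [MulAction Γ W]

/-- the characteristic polynomial `∏_w (X - h w)` of an equivariant `A`-valued function has coefficients in
`R' = A ∩ K^Γ`.
Proof: `χ_K = ∏_w (X - C (h w)) : K[X]`.  Coefficients in `A`: `χ_K` is the image of `∏_w (X - C ⟨h w, _⟩) : A[X]`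
(`Polynomial.map_prod`).  Invariance: `Polynomial.map (β σ) χ_K = ∏_w (X - C (h (σ • w))) = χ_K`
(`Equiv.prod_comp (MulAction.toPerm σ)`).  Then `Polynomial.toSubring`, `Polynomial.monic_toSubring`,
`Polynomial.map_toSubring`. -/
theorem exists_charPoly [Finite W] (h : W → K) (he : Equi β h) (hA : ∀ w, h w ∈ A) :
    ∃ χ : Polynomial (fixR A β), χ.Monic ∧ ∀ w, Polynomial.aeval (h w) χ = 0 := by
  classical
  cases nonempty_fintype W
  let χK : Polynomial K := ∏ w, (Polynomial.X - Polynomial.C (h w))
  have hmonic : χK.Monic := Polynomial.monic_prod_of_monic _ _ fun w _ => Polynomial.monic_X_sub_C _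
  have hcA : ∀ n, χK.coeff n ∈ A := by
    intro n
    have h1 : χK = (∏ w, (Polynomial.X - Polynomial.C (⟨h w, hA w⟩ : A))).map A.subtype := by
      rw [Polynomial.map_prod]
      refine Finset.prod_congr rfl fun w _ => ?_
      rw [Polynomial.map_sub, Polynomial.map_X, Polynomial.map_C]
      rfl
    rw [h1, Polynomial.coeff_map]
    exact Subtype.property _
  have hcinv : ∀ (σ : Γ) n, β σ (χK.coeff n) = χK.coeff n := by
    intro σ n
    have h1 : χK.map ((β σ : K ≃+* K) : K →+* K) = χK := by
      rw [Polynomial.map_prod]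
      refine Eq.trans ?_
        (Equiv.prod_comp (MulAction.toPerm σ) (fun w => Polynomial.X - Polynomial.C (h w)))
      refine Finset.prod_congr rfl fun w _ => ?_
      rw [Polynomial.map_sub, Polynomial.map_X, Polynomial.map_C, MulAction.toPerm_apply, he σ w]
      rfl
    have h2 := congrArg (fun P : Polynomial K => P.coeff n) h1
    simp only [Polynomial.coeff_map] at h2
    exact h2
  have hsub : (↑χK.coeffs : Set K) ⊆ fixR A β := by
    intro c hc
    obtain ⟨n, -, rfl⟩ := Polynomial.mem_coeffs_iff.mp (Finset.mem_coe.mp hc)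
    exact ⟨hcA n, fun σ => hcinv σ n⟩
  refine ⟨χK.toSubring (fixR A β) hsub, (Polynomial.monic_toSubring χK _ hsub).mpr hmonic,
    fun w => ?_⟩
  rw [Polynomial.aeval_def, ← Polynomial.eval_map]
  have h3 : (χK.toSubring (fixR A β) hsub).map (algebraMap (fixR A β) K) = χK :=
    Polynomial.map_toSubring χK (fixR A β) hsub
  rw [h3, Polynomial.eval_prod]
  exact Finset.prod_eq_zero (Finset.mem_univ w) (by simp)

/-- an equivariant `A`-valued function is integral over `R'` in the algebra of all functions (`exists_charPoly`;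
evaluate pointwise: `Polynomial.eval₂`/`aeval` commute with `Pi.evalAlgHom`). -/
theorem isIntegral_of_equi [Finite W] (h : W → K) (he : Equi β h) (hA : ∀ w, h w ∈ A) :
    IsIntegral (fixR A β) h := by
  obtain ⟨χ, hχ, hχ0⟩ := exists_charPoly h he hA
  refine ⟨χ, hχ, ?_⟩
  funext w
  have h1 := Polynomial.aeval_algHom_apply (Pi.evalAlgHom (fixR A β) (fun _ : W => K) w) h χ
  have h2 : Polynomial.aeval (h w) χ = (Polynomial.aeval h χ : W → K) w := h1
  rw [hχ0 w] at h2
  exact h2.symm

/-- **every `R'`-module of equivariant `A`-valued functions on a finite `Γ`-set is finitely generated**, provided the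
equivariant `A`-valued functions separate the points.
Proof.  Choose for every pair `(w, w')` with `w ≠ w'` a separating `f`, `T : W × W → W → K` (`0` on the diagonal);
`exists_injective_isPoly` gives an injective `h`, polynomial in `T`, so equivariant (`IsPoly.equi`) and `A`-valued
(`IsPoly.mem`).  `exists_conductor_of_injective` gives `d ∈ R'`, `d ≠ 0` with `d • f = q(h) ∈ Algebra.adjoin R' {h}`
for all `f ∈ N` (`Polynomial.aeval_mem_adjoin_singleton`, evaluate pointwise).  `Algebra.adjoin R' {h}` is a finitely generated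
module (`IsIntegral.fg_adjoin_singleton`), hence noetherian; so `N.map (d • ·)` is FG (`Submodule.FG.of_le`-type lemma /
`isNoetherian_of_fg_of_noetherian`), and `f ↦ d • f` is injective: `Submodule.fg_of_fg_map_injective`. -/
theorem fg_of_equi [CharZero K] (hB : Base A β ϖ) [IsNoetherianRing (fixR A β)] [Finite W]
    (N : Submodule (fixR A β) (W → K)) (hNe : ∀ f ∈ N, Equi β f) (hNA : ∀ f ∈ N, ∀ w, f w ∈ A)
    (hsep : ∀ w w' : W, w ≠ w' → ∃ f : W → K, Equi β f ∧ (∀ w, f w ∈ A) ∧ f w ≠ f w') :
    N.FG := by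
  classical
  let T : W × W → W → K := fun x =>
    if hx : x.1 ≠ x.2 then (hsep x.1 x.2 hx).choose else 0
  have hTe : ∀ a, Equi β (T a) := by
    intro a
    by_cases hx : a.1 ≠ a.2
    · simp only [T, dif_pos hx]
      exact (hsep a.1 a.2 hx).choose_spec.1
    · simp only [T, dif_neg hx]
      intro σ w
      simp
  have hTA : ∀ a w, T a w ∈ A := by
    intro a
    by_cases hx : a.1 ≠ a.2
    · simp only [T, dif_pos hx]
      exact (hsep a.1 a.2 hx).choose_spec.2.1
    · simp only [T, dif_neg hx]
      intro w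
      exact A.zero_mem
  have hsep' : ∀ w w', (∀ a, T a w = T a w') → w = w' := by
    intro w w' hall
    by_contra hne
    have h1 := hall (w, w')
    have hx : (w, w').1 ≠ (w, w').2 := hne
    simp only [T, dif_pos hx] at h1
    exact (hsep w w' hne).choose_spec.2.2 h1
  obtain ⟨h, hh, hinj⟩ := exists_injective_isPoly (A := A) (β := β) hsep'
  obtain ⟨d, hd, hd0, H⟩ := exists_conductor_of_injective hB h (hh.equi hTe) (hh.mem hTA) hinj
  have hint : IsIntegral (fixR A β) h := isIntegral_of_equi h (hh.equi hTe) (hh.mem hTA)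
  have hSfg : (Subalgebra.toSubmodule (Algebra.adjoin (fixR A β) {h})).FG :=
    hint.fg_adjoin_singleton
  have hSn : IsNoetherian (fixR A β) (Subalgebra.toSubmodule (Algebra.adjoin (fixR A β) {h})) :=
    isNoetherian_of_fg_of_noetherian _ hSfg
  let μ : (W → K) →ₗ[fixR A β] (W → K) := LinearMap.lsmul (fixR A β) (W → K) ⟨d, hd⟩
  have hμ : ∀ (f : W → K) (w : W), μ f w = d * f w := fun _ _ => rfl
  have hμinj : Function.Injective μ := by
    intro f g hfg
    funext w
    have h1 := congrFun hfg w
    rw [hμ, hμ] at h1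
    exact mul_left_cancel₀ hd0 h1
  refine Submodule.fg_of_fg_map_injective μ hμinj (isNoetherian_submodule.mp hSn _ ?_)
  rintro _ ⟨f, hf, rfl⟩
  obtain ⟨q, hq⟩ := H f (hNe f hf) (hNA f hf)
  have h1 : μ f = Polynomial.aeval h q := by
    funext w
    have h2 := Polynomial.aeval_algHom_apply (Pi.evalAlgHom (fixR A β) (fun _ : W => K) w) h q
    have h3 : Polynomial.aeval (h w) q = (Polynomial.aeval h q : W → K) w := h2
    rw [hμ, hq, h3]
  rw [h1]
  exact Polynomial.aeval_mem_adjoin_singleton _ _

end Fermat.Agent.S19.Loc
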