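import Fermat.Agent.S19.A.Defs
import Fermat.Agent.S19.Loc.Dec
import Fermat.Agent.S19.Loc.FG

/-!
# S19 / Loc / Frob : (L3) from a pre-order to a `LocalOrder`

A set `S` of `I`-equivariant `A`-valued functions which separates points and is closed under comultiplication generates,
together with its `φ^n`-translates, a `LocalOrder`.
-/

set_option autoImplicit false
set_option linter.unusedSectionVars false
set_option linter.style.haveILetI false

namespace Fermat.Agent.S19.Loc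

open Fermat.Agent.S19.A Fermat.Agent.S19.RL

/-- the action of a subgroup of `GQ` on `Qbar`. -/
noncomputable def βI (I : Subgroup GQ) : I →* RingAut Qb where
  toFun σ := (σ : GQ).toRingEquiv
  map_one' := rfl
  map_mul' _ _ := rfl

@[simp] theorem βI_apply (I : Subgroup GQ) (σ : I) (a : Qb) : βI I σ a = (σ : GQ) a := rfl

theorem mem_fixR_βI {A : ValuationSubring Qb} {I : Subgroup GQ} {a : Qb} :
    a ∈ fixR A (βI I) ↔ a ∈ A ∧ ∀ σ ∈ I, σ a = a :=
  ⟨fun h => ⟨h.1, fun σ hσ => h.2 ⟨σ, hσ⟩⟩, fun h => ⟨h.1, fun σ => h.2 σ σ.2⟩⟩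

variable {G : Type}

/-- the translate of a function by `φ`. -/
noncomputable def tr (act : GQ → G → G) (φ : GQ) (f : G → Qb) : G → Qb := fun x => φ (f (act φ⁻¹ x))

theorem tr_add (act : GQ → G → G) (φ : GQ) (f g : G → Qb) :
    tr act φ (f + g) = tr act φ f + tr act φ g := by
  funext x
  simp [tr]

theorem tr_mul (act : GQ → G → G) (φ : GQ) (f g : G → Qb) :
    tr act φ (f * g) = tr act φ f * tr act φ g := by
  funext x
  simp [tr]

/-- `I`-equivariant and `A`-valued. -/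
def IsInt (act : GQ → G → G) (I : Subgroup GQ) (A : ValuationSubring Qb) (f : G → Qb) : Prop :=
  (∀ σ ∈ I, ∀ x, f (act σ x) = σ (f x)) ∧ ∀ x, f x ∈ A

/-- the maximal order. -/
def Omax (act : GQ → G → G) (I : Subgroup GQ) (A : ValuationSubring Qb) :
    Subalgebra (fixR A (βI I)) (G → Qb) where
  carrier := {f | IsInt act I A f}
  mul_mem' := fun {f g} hf hg => ⟨fun σ hσ x => by
    rw [Pi.mul_apply, Pi.mul_apply, hf.1 σ hσ, hg.1 σ hσ, map_mul], fun x => A.mul_mem _ _ (hf.2 x) (hg.2 x)⟩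
  add_mem' := fun {f g} hf hg => ⟨fun σ hσ x => by
    rw [Pi.add_apply, Pi.add_apply, hf.1 σ hσ, hg.1 σ hσ, map_add], fun x => A.add_mem _ _ (hf.2 x) (hg.2 x)⟩
  algebraMap_mem' := fun r => ⟨fun σ hσ _ => (r.2.2 ⟨σ, hσ⟩).symm, fun _ => r.2.1⟩

variable [AddCommGroup G] {act : GQ → G → G} {I : Subgroup GQ} {φ : GQ} {A : ValuationSubring Qb}

theorem IsInt.tr (hact : IsGalAction act) (hφA : ∀ a ∈ A, φ a ∈ A)
    (hφI : ∀ σ ∈ I, φ⁻¹ * σ * φ ∈ I) {f : G → Qb} (hf : IsInt act I A f) :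
    IsInt act I A (tr act φ f) := by
  refine ⟨fun σ hσ x => ?_, fun x => hφA _ (hf.2 _)⟩
  show φ (f (act φ⁻¹ (act σ x))) = σ (φ (f (act φ⁻¹ x)))
  have h1 : act φ⁻¹ (act σ x) = act (φ⁻¹ * σ * φ) (act φ⁻¹ x) := by
    rw [← hact.mul, ← hact.mul]
    congr 1
    group
  rw [h1, hf.1 _ (hφI σ hσ)]
  have h2 : ∀ a : Qb, φ ((φ⁻¹ * σ * φ) a) = σ (φ a) := fun a => by
    rw [← AlgEquiv.mul_apply, ← AlgEquiv.mul_apply]
    congr 1
    group
  exact h2 _

theorem frob_mem_fixR (hφA : ∀ a ∈ A, φ a ∈ A) (hφI : ∀ σ ∈ I, φ⁻¹ * σ * φ ∈ I) {a : Qb}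
    (ha : a ∈ fixR A (βI I)) : φ a ∈ fixR A (βI I) := by
  rw [mem_fixR_βI] at ha ⊢
  refine ⟨hφA a ha.1, fun σ hσ => ?_⟩
  have h := ha.2 _ (hφI σ hσ)
  have h2 : φ ((φ⁻¹ * σ * φ) a) = σ (φ a) := by
    rw [← AlgEquiv.mul_apply, ← AlgEquiv.mul_apply]
    congr 1
    group
  rw [← h2, h]

/-- the translates of `S`. -/
def trans (act : GQ → G → G) (φ : GQ) (S : Set (G → Qb)) : Set (G → Qb) :=
  {g | ∃ n : ℕ, ∃ f ∈ S, g = (tr act φ)^[n] f}

theorem subset_trans (S : Set (G → Qb)) : S ⊆ trans act φ S := fun f hf => ⟨0, f, hf, rfl⟩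

theorem tr_mem_trans {S : Set (G → Qb)} {g : G → Qb} (hg : g ∈ trans act φ S) :
    tr act φ g ∈ trans act φ S := by
  obtain ⟨n, f, hf, rfl⟩ := hg
  exact ⟨n + 1, f, hf, (Function.iterate_succ_apply' _ _ _).symm⟩

theorem trans_induction {S : Set (G → Qb)} {P : (G → Qb) → Prop} (h0 : ∀ f ∈ S, P f)
    (h1 : ∀ g, g ∈ trans act φ S → P g → P (tr act φ g)) : ∀ g ∈ trans act φ S, P g := by
  rintro g ⟨n, f, hf, rfl⟩
  induction n with
  | zero => exact h0 f hf
  | succ n ih =>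
    rw [Function.iterate_succ_apply']
    exact h1 _ ⟨n, f, hf, rfl⟩ ih

theorem Dec.tr (hact : IsGalAction act) {S : Set (G → Qb)} {g : G → Qb}
    (h : Dec (trans act φ S) (fun x y => g (x + y))) :
    Dec (trans act φ S) (fun x y => tr act φ g (x + y)) := by
  obtain ⟨ι, i, a, b, ha, hb, hab⟩ := h
  refine ⟨ι, i, fun j => Loc.tr act φ (a j), fun j => Loc.tr act φ (b j),
    fun j => tr_mem_trans (ha j), fun j => tr_mem_trans (hb j), fun x y => ?_⟩
  show φ (g (act φ⁻¹ (x + y))) = ∑ j, φ (a j (act φ⁻¹ x)) * φ (b j (act φ⁻¹ y))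
  have hab' : g (act φ⁻¹ x + act φ⁻¹ y) = ∑ j, a j (act φ⁻¹ x) * b j (act φ⁻¹ y) := hab _ _
  rw [hact.add, hab', map_sum]
  exact Finset.sum_congr rfl fun j _ => map_mul _ _ _

/-- **(L3)** -/
theorem exists_localOrder [Finite G] (hact : IsGalAction act) {ϖ : Qb}
    (hB : Base A (βI I) ϖ) [IsNoetherianRing (fixR A (βI I))]
    (hφA : ∀ a ∈ A, φ a ∈ A) (hφI : ∀ σ ∈ I, φ⁻¹ * σ * φ ∈ I)
    (S : Set (G → Qb))
    (hSe : ∀ f ∈ S, ∀ σ ∈ I, ∀ x, f (act σ x) = σ (f x)) (hSA : ∀ f ∈ S, ∀ x, f x ∈ A)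
    (hSsep : ∀ x y, x ≠ y → ∃ f ∈ S, f x ≠ f y) (hSc : ComulClosed S) :
    ∃ H' : Subalgebra (fixR A (βI I)) (G → Qb), LocalOrder act I φ (fixR A (βI I)) H' := by
  have hint : ∀ g ∈ trans act φ S, IsInt act I A g :=
    trans_induction (fun f hf => ⟨hSe f hf, hSA f hf⟩) (fun g _ hg => hg.tr hact hφA hφI)
  have hle : Algebra.adjoin (fixR A (βI I)) (trans act φ S) ≤ Omax act I A :=
    Algebra.adjoin_le hint
  have hdec : ∀ g ∈ trans act φ S, Dec (trans act φ S) (fun x y => g (x + y)) :=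
    trans_induction (fun f hf => (show Dec S _ from hSc f hf).mono (subset_trans S))
      (fun g _ hg => hg.tr hact)
  refine ⟨Algebra.adjoin (fixR A (βI I)) (trans act φ S), ?_, ?_, ?_, ?_, ?_⟩
  · exact fun f hf => (hle hf).1
  · -- finitely generated
    letI : MulAction I G :=
      { smul := fun σ x => act σ x
        one_smul := fun x => hact.one x
        mul_smul := fun σ τ x => hact.mul σ τ x }
    refine fg_of_equi hB _ (fun f hf σ x => (hle hf).1 σ σ.2 x) (fun f hf => (hle hf).2)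
      (fun x y hxy => ?_)
    obtain ⟨f, hf, hne⟩ := hSsep x y hxy
    exact ⟨f, fun σ x => hSe f hf σ σ.2 x, hSA f hf, hne⟩
  · intro x y hxy
    obtain ⟨f, hf, hne⟩ := hSsep x y hxy
    exact ⟨f, Algebra.subset_adjoin (subset_trans S hf), hne⟩
  · -- comultiplication
    intro f hf
    show Dec _ (fun x y => f (x + y))
    induction hf using Algebra.adjoin_induction with
    | mem g hg => exact (hdec g hg).mono Algebra.subset_adjoin
    | algebraMap r =>
      refine (dec_tmul (Subalgebra.algebraMap_mem _ r) (Subalgebra.one_mem _)).congr fun x y => ?_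
      simp
    | add f g _ _ hf hg => exact hf.add hg
    | mul f g _ _ hf hg => exact hf.mul (fun _ h1 _ h2 => Subalgebra.mul_mem _ h1 h2) hg
  · -- Frobenius
    intro f hf
    show tr act φ f ∈ _
    induction hf using Algebra.adjoin_induction with
    | mem g hg => exact Algebra.subset_adjoin (tr_mem_trans hg)
    | algebraMap r =>
      exact Subalgebra.algebraMap_mem _ (⟨φ r, frob_mem_fixR hφA hφI r.2⟩ : fixR A (βI I))
    | add f g _ _ hf hg =>
      rw [tr_add]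
      exact Subalgebra.add_mem _ hf hg
    | mul f g _ _ hf hg =>
      rw [tr_mul]
      exact Subalgebra.mul_mem _ hf hg

end Fermat.Agent.S19.Loc
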