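import Fermat.Agent.S19.Loc.Main
import Fermat.Agent.S19.Loc.Frob
import Fermat.Agent.S19.A.Desc.Main

/-!
# S19 / Loc / Final : coordinates on the kernel of reduction give a finite flat model
-/

set_option autoImplicit false
set_option linter.unusedSectionVars false
set_option linter.style.haveILetI false

namespace Fermat.Agent.S19.Loc

open Fermat.Agent.S19.A Fermat.Agent.S19.RL

section Transport

variable {K : Type} [Field K] {A : ValuationSubring K} {Γ : Type} [Group Γ] {β : Γ →* RingAut K}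
variable {J : Type} [AddCommGroup J] [DistribMulAction Γ J] {J1 : AddSubgroup J} {ι : Type}
  {z : J → ι → K}

theorem fixR_eq_of_mulEquiv {Γ' : Type} [Group Γ'] (e : Γ' ≃* Γ) {β' : Γ' →* RingAut K}
    (hβ : ∀ σ, β' σ = β (e σ)) : fixR A β' = fixR A β := by
  ext a
  constructor
  · exact fun h => ⟨h.1, fun σ => by
      have := h.2 (e.symm σ)
      rwa [hβ, e.apply_symm_apply] at this⟩
  · exact fun h => ⟨h.1, fun σ => by rw [hβ]; exact h.2 (e σ)⟩

/-- transport of `Coord` along an isomorphism of the acting groups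
(e.g. `I ≃* ` its image in `SemilinearAut K F`). -/
theorem Coord.of_mulEquiv {Γ' : Type} [Group Γ'] (e : Γ' ≃* Γ) {β' : Γ' →* RingAut K}
    (hβ : ∀ σ, β' σ = β (e σ)) [DistribMulAction Γ' J] (hJ : ∀ (σ : Γ') (u : J), σ • u = e σ • u)
    (hz : Coord A β J1 z) : Coord A β' J1 z where
  smul_sub_mem := fun σ u => by rw [hJ]; exact hz.smul_sub_mem _ u
  exists_fixed := fun u => by
    obtain ⟨b, hb, hub⟩ := hz.exists_fixed u
    exact ⟨b, fun σ => by rw [hJ]; exact hb _, hub⟩
  equi := fun σ u hu l => by rw [hJ, hβ]; exact hz.equi _ u hu l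
  mem := hz.mem
  inj := hz.inj
  add := fun W _ _ κ _ T hTe hTm hsep U U' hU hU' hUe hUe' hzU hzU' => by
    rw [fixR_eq_of_mulEquiv e hβ] at hzU hzU' ⊢
    letI : MulAction Γ W := MulAction.compHom W e.symm.toMonoidHom
    have hsm : ∀ (γ : Γ) (w : W), γ • w = e.symm γ • w := fun _ _ => rfl
    refine hz.add W κ T (fun a γ w => ?_) hTm hsep U U' hU hU' (fun γ w => ?_) (fun γ w => ?_)
      hzU hzU'
    · rw [hsm, hTe a, hβ, e.apply_symm_apply]
    · rw [hsm, hUe, hJ, e.apply_symm_apply]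
    · rw [hsm, hUe', hJ, e.apply_symm_apply]

end Transport

variable {ℓ : ℕ} [Fact ℓ.Prime] {G : Type} [AddCommGroup G] [Finite G] {act : GQ → G → G}
  {I : Subgroup GQ} {φ : GQ} {A : ValuationSubring Qb}

/-- **S19, abstract form**: a finite Galois module which embeds `I`-equivariantly in a group `J` with coordinates on the kernel of
reduction has a finite flat model over `ℤ_(ℓ)`. -/
theorem hasFlatModel_of_coord (hact : IsGalAction act) (hR : UnramBase ℓ I φ (fixR A (βI I)))
    {ϖ : Qb} (hB : Base A (βI I) ϖ) (hφA : ∀ a ∈ A, φ a ∈ A) (hφI : ∀ σ ∈ I, φ⁻¹ * σ * φ ∈ I)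
    {J : Type} [AddCommGroup J] [DistribMulAction I J] {J1 : AddSubgroup J} {ι : Type} [Finite ι]
    {z : J → ι → Qb} (hz : Coord A (βI I) J1 z) (j : G →+ J) (hj : Function.Injective j)
    (hjσ : ∀ (σ : I) x, j (act σ x) = σ • j x) : HasFlatModel ℓ G act := by
  letI : MulAction I G :=
    { smul := fun σ x => act σ x
      one_smul := fun x => hact.one x
      mul_smul := fun σ τ x => hact.mul σ τ x }
  obtain ⟨S, hSe, hSA, hSsep, hSc⟩ := hz.exists_preOrder j hj hjσ
  haveI := hR.pid
  obtain ⟨H', hH'⟩ := exists_localOrder hact hB hφA hφI (S : Set (G → Qb))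
    (fun f hf σ hσ x => hSe f hf ⟨σ, hσ⟩ x) hSA hSsep hSc
  exact hH'.hasFlatModel hR hact

end Fermat.Agent.S19.Loc
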