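import Fermat.Agent.S19.Loc.Dec

/-!
# S19 / Loc / Alg : elementary properties of `Hloc`
-/

set_option autoImplicit false

namespace Fermat.Agent.S19.Loc

open Fermat.Agent.S19.RL MvPolynomial

variable {K : Type} [Field K] {A : ValuationSubring K} {Γ : Type} [Group Γ] {β : Γ →* RingAut K}
variable {G C ι : Type} {cls : G → C} {ζ : G → ι → K}

open Classical in
/-- a polynomial on one fibre, extended by zero. -/
theorem bump_mem (c : C) (p : MvPolynomial ι (fixR A β)) :
    (fun x => if cls x = c then aeval (ζ x) p else (0 : K)) ∈ Hloc A β cls ζ := by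
  intro c'
  by_cases h : c' = c
  · subst h
    exact ⟨p, fun x hx => if_pos hx⟩
  · exact ⟨0, fun x hx => by
      rw [map_zero]
      exact if_neg (by rw [hx]; exact h)⟩

open Classical in
/-- the indicator function of a fibre. -/
theorem ind_mem (c : C) : (fun x => if cls x = c then (1 : K) else 0) ∈ Hloc A β cls ζ := by
  have h := bump_mem (A := A) (β := β) (cls := cls) (ζ := ζ) c 1
  simpa using h

theorem coord_mem (l : ι) : (fun x => ζ x l) ∈ Hloc A β cls ζ :=
  fun _ => ⟨X l, fun x _ => by rw [aeval_X]⟩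

theorem aeval_fixR_map (σ : Γ) (v : ι → K) (p : MvPolynomial ι (fixR A β)) :
    β σ (aeval v p) = aeval (fun l => β σ (v l)) p := by
  rw [MvPolynomial.aeval_def, MvPolynomial.aeval_def]
  have h1 := MvPolynomial.eval₂_comp_left (β σ : K →+* K) (algebraMap (fixR A β) K) v p
  have h2 : (β σ : K →+* K).comp (algebraMap (fixR A β) K) = algebraMap (fixR A β) K := by
    ext x
    exact x.2.2 σ
  rw [h2] at h1
  exact h1

theorem aeval_fixR_mem {v : ι → K} (hv : ∀ l, v l ∈ A) (p : MvPolynomial ι (fixR A β)) :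
    aeval v p ∈ A := by
  induction p using MvPolynomial.induction_on with
  | C a =>
    rw [MvPolynomial.aeval_C]
    exact a.2.1
  | add p q hp hq =>
    rw [map_add]
    exact A.add_mem _ _ hp hq
  | mul_X p i hp =>
    rw [map_mul, MvPolynomial.aeval_X]
    exact A.mul_mem _ _ hp (hv i)

/-- the elements of `Hloc` are equivariant. -/
theorem Hloc_equi [MulAction Γ G] (hcls : ∀ (σ : Γ) x, cls (σ • x) = cls x)
    (hζ : ∀ (σ : Γ) x l, ζ (σ • x) l = β σ (ζ x l)) {f : G → K} (hf : f ∈ Hloc A β cls ζ)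
    (σ : Γ) (x : G) : f (σ • x) = β σ (f x) := by
  obtain ⟨p, hp⟩ := hf (cls x)
  rw [hp x rfl, hp (σ • x) (hcls σ x), aeval_fixR_map]
  have h : ζ (σ • x) = fun l => β σ (ζ x l) := funext fun l => hζ σ x l
  rw [h]

/-- the elements of `Hloc` are `A`-valued. -/
theorem Hloc_mem (hζ : ∀ x l, ζ x l ∈ A) {f : G → K} (hf : f ∈ Hloc A β cls ζ) (x : G) :
    f x ∈ A := by
  obtain ⟨p, hp⟩ := hf (cls x)
  rw [hp x rfl]
  exact aeval_fixR_mem (hζ x) p

/-- `Hloc` separates points. -/
theorem Hloc_sep (hinj : ∀ x y, cls x = cls y → ζ x = ζ y → x = y) (x y : G) (hxy : x ≠ y) :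
    ∃ f ∈ Hloc A β cls ζ, f x ≠ f y := by
  classical
  by_cases hc : cls x = cls y
  · have h1 : ζ x ≠ ζ y := fun h => hxy (hinj x y hc h)
    obtain ⟨l, hl⟩ := Function.ne_iff.1 h1
    exact ⟨_, coord_mem l, hl⟩
  · refine ⟨_, ind_mem (cls x), ?_⟩
    show (if cls x = cls x then (1 : K) else 0) ≠ (if cls y = cls x then (1 : K) else 0)
    rw [if_pos rfl, if_neg (fun h => hc h.symm)]
    exact one_ne_zero

theorem Hloc_mul_mem : ∀ f ∈ (Hloc A β cls ζ : Set (G → K)), ∀ g ∈ (Hloc A β cls ζ : Set (G → K)),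
    f * g ∈ (Hloc A β cls ζ : Set (G → K)) := fun _ hf _ hg => (Hloc A β cls ζ).mul_mem hf hg

open Classical in
/-- a polynomial kernel supported on one pair of fibres is decomposable. -/
theorem dec_bump (c c' : C) (P : MvPolynomial (ι ⊕ ι) (fixR A β)) :
    Dec (Hloc A β cls ζ : Set (G → K))
      (fun x y => (if cls x = c then (1 : K) else 0) * (if cls y = c' then (1 : K) else 0) *
        aeval (Sum.elim (ζ x) (ζ y)) P) := by
  induction P using MvPolynomial.induction_on with
  | C a =>
    refine (dec_tmul (S := (Hloc A β cls ζ : Set (G → K)))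
      ((Hloc A β cls ζ).smul_mem (ind_mem c) a) (ind_mem c')).congr fun x y => ?_
    rw [aeval_C]
    show (a : K) * (if cls x = c then (1 : K) else 0) * _ = _ * _ * (a : K)
    ring
  | add p q hp hq =>
    refine (hp.add hq).congr fun x y => ?_
    rw [map_add]
    ring
  | mul_X p i hp =>
    rcases i with l | l
    · refine (hp.mul_left Hloc_mul_mem (coord_mem l)).congr fun x y => ?_
      rw [map_mul, aeval_X, Sum.elim_inl]
      ring
    · refine (hp.mul_right Hloc_mul_mem (coord_mem l)).congr fun x y => ?_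
      rw [map_mul, aeval_X, Sum.elim_inr]
      ring

/-- **a kernel which is polynomial on every pair of fibres is decomposable.** -/
theorem dec_of_poly [Finite G] (F : G → G → K)
    (hF : ∀ c c' : C, ∃ P : MvPolynomial (ι ⊕ ι) (fixR A β), ∀ x y, cls x = c → cls y = c' →
      F x y = aeval (Sum.elim (ζ x) (ζ y)) P) :
    Dec (Hloc A β cls ζ : Set (G → K)) F := by
  classical
  cases nonempty_fintype G
  choose P hP using hF
  let s : Finset C := Finset.univ.image cls
  refine (dec_sum (s ×ˢ s) (fun cc x y => (if cls x = cc.1 then (1 : K) else 0) *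
    (if cls y = cc.2 then (1 : K) else 0) * aeval (Sum.elim (ζ x) (ζ y)) (P cc.1 cc.2))
    (fun cc _ => dec_bump cc.1 cc.2 _)).congr fun x y => ?_
  rw [Finset.sum_eq_single (cls x, cls y)]
  · rw [if_pos rfl, if_pos rfl, one_mul, one_mul, hP _ _ x y rfl rfl]
  · rintro ⟨c, c'⟩ _ hne
    by_cases h1 : cls x = c
    · by_cases h2 : cls y = c'
      · exact (hne (by rw [h1, h2])).elim
      · simp [h2]
    · simp [h1]
  · intro h
    exact (h (Finset.mem_product.2 ⟨Finset.mem_image_of_mem _ (Finset.mem_univ _),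
      Finset.mem_image_of_mem _ (Finset.mem_univ _)⟩)).elim

end Fermat.Agent.S19.Loc
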