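import Fermat.Agent.S19.A.Final

/-!
# S19 / Loc / Glue : `Coord` for the inertia group of `A`  ⇒  `HasFlatModel`  (= `A.hasFlatModel_of_coord_inertia`)
-/

set_option autoImplicit false

namespace Fermat.Agent.S19.Loc

open Fermat.Agent.S19.A Fermat.Agent.S19.RL

variable {ℓ : ℕ} [Fact ℓ.Prime] {G : Type} [AddCommGroup G] [Finite G] {act : GQ → G → G}
  {A : ValuationSubring Qb}

/-- **S19, abstract form.**  `A` a valuation ring of `Qbar` over `ℓ`, `I` its inertia group.  A finite Galois module which embeds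
`I`-equivariantly in an `I`-module `J` with coordinates on the kernel of reduction (`Coord`) has a finite flat model over `ℤ_(ℓ)`. -/
theorem hasFlatModel_of_coord_inertia (hact : IsGalAction act) (hA : A.LiesOverPrime ℓ)
    {J : Type} [AddCommGroup J] [DistribMulAction (A.inertiaSubgroupIn ℚ) J] {J1 : AddSubgroup J}
    {ι : Type} [Finite ι] {z : J → ι → Qb} (hz : Coord A (βI (A.inertiaSubgroupIn ℚ)) J1 z)
    (j : G →+ J) (hj : Function.Injective j)
    (hjσ : ∀ (σ : A.inertiaSubgroupIn ℚ) x, j (act σ x) = σ • j x) : HasFlatModel ℓ G act :=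
  Fermat.Agent.S19.A.hasFlatModel_of_coord_inertia hact hA hz j hj hjσ

end Fermat.Agent.S19.Loc
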