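import Fermat.Agent.S19.Loc.Alg

/-!
# S19 / Loc / Main : (L2) coordinates on the kernel of reduction give a pre-order on every finite
stable subgroup
-/

set_option autoImplicit false

namespace Fermat.Agent.S19.Loc

open Fermat.Agent.S19.RL MvPolynomial

variable {K : Type} [Field K] {A : ValuationSubring K} {Γ : Type} [Group Γ] {β : Γ →* RingAut K}
variable {J : Type} [AddCommGroup J] [DistribMulAction Γ J] {J1 : AddSubgroup J} {ι : Type}
  {z : J → ι → K}

theorem Coord.smul_mem (hz : Coord A β J1 z) (σ : Γ) {u : J} (hu : u ∈ J1) : σ • u ∈ J1 := by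
  have h := J1.add_mem (hz.smul_sub_mem σ u) hu
  rwa [sub_add_cancel] at h

theorem Coord.mk_smul (hz : Coord A β J1 z) (σ : Γ) (u : J) :
    (QuotientAddGroup.mk (σ • u) : J ⧸ J1) = QuotientAddGroup.mk u := by
  rw [eq_comm, QuotientAddGroup.eq]
  have h := hz.smul_sub_mem σ u
  rwa [sub_eq_neg_add] at h

theorem Coord.exists_rep (hz : Coord A β J1 z) (c : J ⧸ J1) :
    ∃ b : J, (∀ σ : Γ, σ • b = b) ∧ (QuotientAddGroup.mk b : J ⧸ J1) = c := by
  obtain ⟨u, rfl⟩ := QuotientAddGroup.mk_surjective c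
  obtain ⟨b, hb, hub⟩ := hz.exists_fixed u
  refine ⟨b, hb, ?_⟩
  rw [QuotientAddGroup.eq]
  rwa [sub_eq_neg_add] at hub

/-- the coordinates of a fixed point of `J1` lie in `R'`. -/
theorem Coord.mem_fixR (hz : Coord A β J1 z) {u : J} (hu : u ∈ J1) (hfix : ∀ σ : Γ, σ • u = u)
    (l : ι) : z u l ∈ fixR A β :=
  ⟨A.nonunits_subset (hz.mem u hu l), fun σ => by rw [← hz.equi σ u hu l, hfix σ]⟩

theorem sub_mem_of_mk_eq {u b : J} (h : (QuotientAddGroup.mk b : J ⧸ J1) = QuotientAddGroup.mk u) :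
    u - b ∈ J1 := by
  rw [QuotientAddGroup.eq] at h
  rwa [sub_eq_neg_add]

/-- **(L2)** -/
theorem Coord.exists_preOrder [Finite ι] (hz : Coord A β J1 z)
    {G : Type} [AddCommGroup G] [Finite G] [MulAction Γ G] (j : G →+ J)
    (hj : Function.Injective j) (hjσ : ∀ (σ : Γ) x, j (σ • x) = σ • j x) :
    ∃ S : Subalgebra (fixR A β) (G → K),
      (∀ f ∈ S, ∀ (σ : Γ) x, f (σ • x) = β σ (f x)) ∧ (∀ f ∈ S, ∀ x, f x ∈ A) ∧
      (∀ x y, x ≠ y → ∃ f ∈ S, f x ≠ f y) ∧
      ∀ f ∈ S, Dec (S : Set (G → K)) (fun x y => f (x + y)) := by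
  classical
  choose b hbfix hbmk using hz.exists_rep
  let cls : G → J ⧸ J1 := fun x => QuotientAddGroup.mk (j x)
  let ζ : G → ι → K := fun x => z (j x - b (cls x))
  have hcls : ∀ (σ : Γ) x, cls (σ • x) = cls x := fun σ x => by
    show (QuotientAddGroup.mk (j (σ • x)) : J ⧸ J1) = QuotientAddGroup.mk (j x)
    rw [hjσ, hz.mk_smul]
  have hmem : ∀ x, j x - b (cls x) ∈ J1 := fun x => sub_mem_of_mk_eq (hbmk (cls x))
  have hζe : ∀ (σ : Γ) x l, ζ (σ • x) l = β σ (ζ x l) := fun σ x l => by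
    show z (j (σ • x) - b (cls (σ • x))) l = β σ (z (j x - b (cls x)) l)
    rw [← hz.equi σ _ (hmem x) l, hcls, hjσ, smul_sub, hbfix]
  have hζm : ∀ x l, ζ x l ∈ A.nonunits := fun x l => hz.mem _ (hmem x) l
  have hinj : ∀ x y, cls x = cls y → ζ x = ζ y → x = y := fun x y hc hζ => by
    have h := hz.inj _ (hmem x) _ (hmem y) hζ
    rw [hc] at h
    exact hj (sub_left_injective h)
  refine ⟨Hloc A β cls ζ, fun f hf σ x => Hloc_equi hcls hζe hf σ x,
    fun f hf x => Hloc_mem (fun x l => A.nonunits_subset (hζm x l)) hf x, Hloc_sep hinj,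
    fun f hf => dec_of_poly _ fun c c' => ?_⟩
  -- the finite `Γ`-set `W = fibre(c) × fibre(c')`
  let W : SubMulAction Γ (G × G) :=
    { carrier := {w | cls w.1 = c ∧ cls w.2 = c'}
      smul_mem' := fun σ w hw => ⟨(hcls σ w.1).trans hw.1, (hcls σ w.2).trans hw.2⟩ }
  let T : ι ⊕ ι → W → K := fun a w => Sum.elim (ζ w.1.1) (ζ w.1.2) a
  have hTe : ∀ a, Equi β (T a) := by
    rintro (l | l) σ w
    · exact hζe σ w.1.1 l
    · exact hζe σ w.1.2 l
  have hTm : ∀ a w, T a w ∈ A.nonunits := by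
    rintro (l | l) w
    · exact hζm w.1.1 l
    · exact hζm w.1.2 l
  have hTsep : ∀ w w' : W, (∀ a, T a w = T a w') → w = w' := by
    intro w w' h
    apply Subtype.ext
    apply Prod.ext
    · exact hinj _ _ (w.2.1.trans w'.2.1.symm) (funext fun l => h (Sum.inl l))
    · exact hinj _ _ (w.2.2.trans w'.2.2.symm) (funext fun l => h (Sum.inr l))
  -- the three points of `J1`
  let U : W → J := fun w => j w.1.1 - b c
  let U' : W → J := fun w => j w.1.2 - b c'
  let γ : J := b c + b c' - b (c + c')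
  have hU : ∀ w, U w ∈ J1 := fun w => by
    have h := hmem w.1.1
    rwa [w.2.1] at h
  have hU' : ∀ w, U' w ∈ J1 := fun w => by
    have h := hmem w.1.2
    rwa [w.2.2] at h
  have hγ : γ ∈ J1 := by
    apply sub_mem_of_mk_eq
    rw [hbmk, QuotientAddGroup.mk_add, hbmk, hbmk]
  have hγfix : ∀ σ : Γ, σ • γ = γ := fun σ => by
    show σ • (b c + b c' - b (c + c')) = _
    rw [smul_sub, smul_add, hbfix, hbfix, hbfix]
  have hUe : ∀ (σ : Γ) w, U (σ • w) = σ • U w := fun σ w => by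
    show j (σ • w.1.1) - b c = σ • (j w.1.1 - b c)
    rw [smul_sub, hbfix, hjσ]
  have hUe' : ∀ (σ : Γ) w, U' (σ • w) = σ • U' w := fun σ w => by
    show j (σ • w.1.2) - b c' = σ • (j w.1.2 - b c')
    rw [smul_sub, hbfix, hjσ]
  have hzU : ∀ l, IsPoly (fixR A β) T (fun w => z (U w) l) := fun l =>
    (isPoly_coord (R := fixR A β) (T := T) (Sum.inl l)).congr fun w => by
      show z (j w.1.1 - b (cls w.1.1)) l = z (j w.1.1 - b c) l
      rw [w.2.1]
  have hzU' : ∀ l, IsPoly (fixR A β) T (fun w => z (U' w) l) := fun l =>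
    (isPoly_coord (R := fixR A β) (T := T) (Sum.inr l)).congr fun w => by
      show z (j w.1.2 - b (cls w.1.2)) l = z (j w.1.2 - b c') l
      rw [w.2.2]
  have h1 := hz.add W (ι ⊕ ι) T hTe hTm hTsep U U' hU hU' hUe hUe' hzU hzU'
  have h2 := hz.add W (ι ⊕ ι) T hTe hTm hTsep (fun w => U w + U' w) (fun _ => γ)
    (fun w => J1.add_mem (hU w) (hU' w)) (fun _ => hγ)
    (fun σ w => by rw [hUe, hUe', smul_add]) (fun σ _ => (hγfix σ).symm) h1
    (fun l => isPoly_const (hz.mem_fixR hγ hγfix l))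
  -- `ζ (x + y)` is polynomial
  have h3 : ∀ l, IsPoly (fixR A β) T (fun w : W => ζ (w.1.1 + w.1.2) l) := fun l =>
    (h2 l).congr fun w => by
      have hc : cls (w.1.1 + w.1.2) = c + c' := by
        show (QuotientAddGroup.mk (j (w.1.1 + w.1.2)) : J ⧸ J1) = c + c'
        rw [map_add, QuotientAddGroup.mk_add]
        exact congrArg₂ _ w.2.1 w.2.2
      show z (j w.1.1 - b c + (j w.1.2 - b c') + (b c + b c' - b (c + c'))) l
        = z (j (w.1.1 + w.1.2) - b (cls (w.1.1 + w.1.2))) l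
      rw [hc, map_add]
      congr 2
      abel
  obtain ⟨p, hp⟩ := hf (c + c')
  have h4 : IsPoly (fixR A β) (fun (l : ι) (w : W) => ζ (w.1.1 + w.1.2) l)
      (fun w : W => f (w.1.1 + w.1.2)) := ⟨p, fun w => hp _ (by
    show (QuotientAddGroup.mk (j (w.1.1 + w.1.2)) : J ⧸ J1) = c + c'
    rw [map_add, QuotientAddGroup.mk_add]
    exact congrArg₂ _ w.2.1 w.2.2)⟩
  obtain ⟨P, hP⟩ := h4.comp h3
  exact ⟨P, fun x y hx hy => hP ⟨(x, y), hx, hy⟩⟩

end Fermat.Agent.S19.Loc
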